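import Fermat.Agent.UniversalOptimal.Energy

/-!
# The Newton bases of the two configurations

The partial products of the factors at `-1` and, doubly, at the other inner products have
nonnegative Gegenbauer coefficients.
-/

set_option autoImplicit false

noncomputable section

open Polynomial

namespace FA.UniversalOptimal

open FA.Zonal (gegPoly gegC)

/-- The Newton basis in dimension `8`. -/
theorem suffixesEight :
    ∀ t l', t :: l' <:+ ([1 / 2, 0, -(1 / 2)] : List ℝ) →
      nodePoly l' ∈ cone 8 6 ∧ nodePoly l' * (X - C t) ∈ cone 8 6 := by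
  intro t l' h
  simp only [List.suffix_cons_iff, List.suffix_nil, List.cons.injEq, reduceCtorEq, or_false] at h
  obtain ⟨rfl, rfl⟩ | ⟨rfl, rfl⟩ | ⟨rfl, rfl⟩ := h
  · exact ⟨cone_of [17 / 160, 1 / 2, 5 / 4, 55 / 28, 2, 1] (by norm_num) (by norm_num)
      fun x => by simp [nodePoly, gegPoly, gegC, Finset.sum_range_succ]; ring,
    cone_of [3 / 320, 3 / 40, 15 / 56, 39 / 56, 19 / 16, 3 / 2, 1] (by norm_num) (by norm_num)
      fun x => by simp [nodePoly, gegPoly, gegC, Finset.sum_range_succ]; ring⟩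
  · exact ⟨cone_of [1 / 2, 31 / 20, 2, 1] (by norm_num) (by norm_num)
      fun x => by simp [nodePoly, gegPoly, gegC, Finset.sum_range_succ]; ring,
    cone_of [31 / 160, 17 / 20, 7 / 4, 2, 1] (by norm_num) (by norm_num)
      fun x => by simp [nodePoly, gegPoly, gegC, Finset.sum_range_succ]; ring⟩
  · exact ⟨cone_of [1, 1] (by norm_num) (by norm_num)
      fun x => by simp [nodePoly, gegPoly, gegC, Finset.sum_range_succ]; ring,
    cone_of [5 / 8, 3 / 2, 1] (by norm_num) (by norm_num)
      fun x => by simp [nodePoly, gegPoly, gegC, Finset.sum_range_succ]; ring⟩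

/-- The Newton basis in dimension `24`. -/
theorem suffixesTwentyFour :
    ∀ t l', t :: l' <:+ ([1 / 2, 1 / 4, 0, -(1 / 4), -(1 / 2)] : List ℝ) →
      nodePoly l' ∈ cone 24 10 ∧ nodePoly l' * (X - C t) ∈ cone 24 10 := by
  intro t l' h
  simp only [List.suffix_cons_iff, List.suffix_nil, List.cons.injEq, reduceCtorEq, or_false] at h
  obtain ⟨rfl, rfl⟩ | ⟨rfl, rfl⟩ | ⟨rfl, rfl⟩ | ⟨rfl, rfl⟩ | ⟨rfl, rfl⟩ := h
  · exact ⟨cone_of [35 / 106496, 15 / 3584, 195 / 7168, 2015 / 17408, 789 / 2176,
      3705 / 4352, 14 / 9, 315 / 152, 2, 1] (by norm_num) (by norm_num)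
      fun x => by simp [nodePoly, gegPoly, gegC, Finset.sum_range_succ]; ring,
    cone_of [15 / 1490944, 45 / 186368, 495 / 243712, 435 / 34816,
      6927 / 139264, 1467 / 8704, 17747 / 43776, 261 / 304, 5 / 4,
      3 / 2, 1] (by norm_num) (by norm_num)
      fun x => by simp [nodePoly, gegPoly, gegC, Finset.sum_range_succ]; ring⟩
  · exact ⟨cone_of [1063 / 139776, 17 / 224, 163 / 448, 13 / 12, 139 / 64,
      797 / 272, 5 / 2, 1] (by norm_num) (by norm_num)
      fun x => by simp [nodePoly, gegPoly, gegC, Finset.sum_range_succ]; ring,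
    cone_of [235 / 186368, 45 / 2912, 165 / 1792, 45 / 128, 8157 / 8704,
      1971 / 1088, 355 / 144, 9 / 4, 1] (by norm_num) (by norm_num)
      fun x => by simp [nodePoly, gegPoly, gegC, Finset.sum_range_succ]; ring⟩
  · exact ⟨cone_of [173 / 2496, 2857 / 5824, 43 / 28, 127 / 48, 5 / 2, 1]
      (by norm_num) (by norm_num)
      fun x => by simp [nodePoly, gegPoly, gegC, Finset.sum_range_succ]; ring,
    cone_of [2857 / 139776, 1063 / 5824, 337 / 448, 11 / 6, 89 / 32,
      5 / 2, 1] (by norm_num) (by norm_num)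
      fun x => by simp [nodePoly, gegPoly, gegC, Finset.sum_range_succ]; ring⟩
  · exact ⟨cone_of [1 / 3, 71 / 52, 2, 1] (by norm_num) (by norm_num)
      fun x => by simp [nodePoly, gegPoly, gegC, Finset.sum_range_succ]; ring,
    cone_of [175 / 1248, 171 / 208, 55 / 28, 9 / 4, 1] (by norm_num) (by norm_num)
      fun x => by simp [nodePoly, gegPoly, gegC, Finset.sum_range_succ]; ring⟩
  · exact ⟨cone_of [1, 1] (by norm_num) (by norm_num)
      fun x => by simp [nodePoly, gegPoly, gegC, Finset.sum_range_succ]; ring,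
    cone_of [13 / 24, 3 / 2, 1] (by norm_num) (by norm_num)
      fun x => by simp [nodePoly, gegPoly, gegC, Finset.sum_range_succ]; ring⟩

end FA.UniversalOptimal

end
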