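import Fermat.Agent.UniversalOptimal.Interpolation
import Fermat.Agent.KissingUnique.Design

/-!
# The linear programming bound for energies

A polynomial whose Gegenbauer coefficients of positive degree are nonnegative has the least sum
over all pairs at a spherical design of that strength. Below a potential, agreeing with it at the
inner products of the design, it shows that the design minimises the energy.
-/

set_option autoImplicit false

noncomputable section

open Finset Polynomial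

namespace FA.UniversalOptimal

open FA.Zonal (gegPoly gegC gegPoly_posDef)
open FA.KissingUnique (dot)

/-- Nonnegative Gegenbauer coefficients of positive degree, up to degree `d`. -/
def cone (n d : ℕ) : Set ℝ[X] :=
  {h | ∃ a : ℕ → ℝ, (∀ k, 1 ≤ k → 0 ≤ a k) ∧
    ∀ t, h.eval t = ∑ k ∈ range (d + 1), a k * gegPoly n k t}

theorem cone_const (n d : ℕ) (c : ℝ) : C c ∈ cone n d := by
  refine ⟨Pi.single 0 c, fun k hk => ?_, fun t => ?_⟩
  · rw [Pi.single_eq_of_ne (by omega)]
  · rw [eval_C, sum_eq_single_of_mem 0 (by simp) fun k _ hk => by simp [hk]]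
    simp [gegPoly, gegC]

theorem cone_add {n d : ℕ} (p : ℝ[X]) (hp : p ∈ cone n d) (q : ℝ[X]) (hq : q ∈ cone n d) :
    p + q ∈ cone n d := by
  obtain ⟨a, ha, ha'⟩ := hp
  obtain ⟨b, hb, hb'⟩ := hq
  exact ⟨a + b, fun k hk => add_nonneg (ha k hk) (hb k hk),
    fun t => by simp [ha', hb', add_mul, sum_add_distrib]⟩

theorem cone_smul {n d : ℕ} (c : ℝ) (hc : 0 ≤ c) (p : ℝ[X]) (hp : p ∈ cone n d) :
    C c * p ∈ cone n d := by
  obtain ⟨a, ha, ha'⟩ := hp
  exact ⟨fun k => c * a k, fun k hk => mul_nonneg hc (ha k hk),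
    fun t => by simp [ha', mul_sum, mul_assoc]⟩

theorem cone_of {n d : ℕ} {p : ℝ[X]} (L : List ℝ) (hL : ∀ v ∈ L, 0 ≤ v) (hd : L.length ≤ d + 1)
    (hp : ∀ t, p.eval t = ∑ k ∈ range L.length, L.getD k 0 * gegPoly n k t) : p ∈ cone n d := by
  refine ⟨fun k => L.getD k 0, fun k _ => ?_, fun t => ?_⟩
  · rcases lt_or_ge k L.length with hk | hk
    · simpa only [List.getD_eq_getElem _ _ hk] using hL _ (List.getElem_mem hk)
    · simp only [List.getD_eq_default _ _ hk, le_refl]
  · rw [hp, ← sum_range_add_sum_Ico _ hd, sum_eq_zero (s := Ico _ _) fun k hk => by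
      simp [(mem_Ico.1 hk).1], add_zero]

variable {ι κ : Type*} [Fintype ι] [Fintype κ] {n d : ℕ}

/-- Sums over pairs are least at designs. -/
theorem sum_le_of_design (hn : 0 < n) {h : ℝ[X]} (hh : h ∈ cone n d) (x : ι → Fin n → ℝ)
    (hx : ∀ i, dot (x i) (x i) = 1) (y : κ → Fin n → ℝ)
    (hdes : ∀ k, 1 ≤ k → k ≤ d → ∀ a, ∑ b, gegPoly n k (dot (y a) (y b)) = 0)
    (hcard : Fintype.card κ = Fintype.card ι) :
    ∑ a, ∑ b, h.eval (dot (y a) (y b)) ≤ ∑ a, ∑ b, h.eval (dot (x a) (x b)) := by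
  obtain ⟨c, hc, e⟩ := hh
  simp only [e]
  rw [sum_congr rfl fun a _ => sum_comm, sum_comm,
    sum_congr (s₁ := (univ : Finset ι)) rfl fun a _ => sum_comm, sum_comm (s := (univ : Finset ι))]
  refine sum_le_sum fun k hk => ?_
  simp only [← mul_sum]
  rcases Nat.eq_zero_or_pos k with rfl | hk0
  · simp [gegPoly, gegC, hcard]
  rw [sum_eq_zero fun a _ => hdes k hk0 (Nat.lt_succ_iff.1 (mem_range.1 hk)) a, mul_zero]
  refine mul_nonneg (hc k hk0) ?_
  simpa [dot] using gegPoly_posDef hn k (fun _ : ι => (1 : ℝ)) x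
    (KissingUnique.unit_sq hx)

variable [DecidableEq ι] [DecidableEq κ]

/-- The energy of a configuration. -/
def energy (f : ℝ → ℝ) (x : ι → Fin n → ℝ) : ℝ :=
  ∑ a, ∑ b ∈ univ.erase a, f (dot (x a) (x b))

theorem energy_add_diag (f : ℝ → ℝ) (x : ι → Fin n → ℝ) (hx : ∀ i, dot (x i) (x i) = 1) :
    energy f x + Fintype.card ι * f 1 = ∑ a, ∑ b, f (dot (x a) (x b)) := by
  rw [energy, ← nsmul_eq_mul, ← card_univ, ← sum_const, ← sum_add_distrib]
  refine sum_congr rfl fun a _ => ?_
  rw [← sum_erase_add univ _ (mem_univ a), hx]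

theorem dot_mem_Ico {u v : Fin n → ℝ} (hu : dot u u = 1) (hv : dot v v = 1) (hne : u ≠ v) :
    dot u v ∈ Set.Ico (-1 : ℝ) 1 := by
  have h1 : 0 ≤ dot (u + v) (u + v) := sum_nonneg fun l _ => mul_self_nonneg _
  have h2 : 0 < dot (u - v) (u - v) := lt_of_le_of_ne (sum_nonneg fun l _ => mul_self_nonneg _)
    (Ne.symm fun e => hne (sub_eq_zero.1 (KissingUnique.dot_self_eq_zero.1 e)))
  simp only [KissingUnique.dot_add_left, KissingUnique.dot_add_right, hu, hv,
    KissingUnique.dot_comm' v u] at h1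
  simp only [KissingUnique.dot_sub_left, KissingUnique.dot_sub_right, hu, hv,
    KissingUnique.dot_comm' v u] at h2
  exact ⟨by linarith, by linarith⟩

/-- **A design with its inner products at the nodes minimises the energy.** -/
theorem energy_min (hn : 0 < n) {f : ℝ → ℝ} {l : List ℝ} (hf : IsPotential f (2 * l.length + 1))
    (hl : l.Nodup) (hlI : ∀ t ∈ l, t ∈ Set.Ioo (-1 : ℝ) 1)
    (hsuf : ∀ t l', t :: l' <:+ l → nodePoly l' ∈ cone n (2 * l.length) ∧
      nodePoly l' * (X - C t) ∈ cone n (2 * l.length))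
    {x : ι → Fin n → ℝ} (hx : ∀ i, dot (x i) (x i) = 1) (hinj : Function.Injective x)
    {y : κ → Fin n → ℝ} (hy : ∀ i, dot (y i) (y i) = 1)
    (hnode : ∀ a b, a ≠ b → dot (y a) (y b) = -1 ∨ dot (y a) (y b) ∈ l)
    (hdes : ∀ k, 1 ≤ k → k ≤ 2 * l.length → ∀ a, ∑ b, gegPoly n k (dot (y a) (y b)) = 0)
    (hcard : Fintype.card κ = Fintype.card ι) :
    energy f y ≤ energy f x ∧
      ((∀ s ∈ Set.Ioo (-1 : ℝ) 1, 0 < iteratedDeriv (2 * l.length + 1) f s) →
        energy f x = energy f y →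
        ∀ a b, a ≠ b → dot (x a) (x b) = -1 ∨ dot (x a) (x b) ∈ l) := by
  obtain ⟨h, hhK, hhd, hhm⟩ := hf.exists_interpolant (cone n (2 * l.length)) (cone_const n _)
    cone_add cone_smul l hl hlI (by omega) hsuf
  have hI : ∀ a b, b ∈ univ.erase a → dot (x a) (x b) ∈ Set.Ico (-1 : ℝ) 1 := fun a b hb =>
    dot_mem_Ico (hx a) (hx b) fun e => (ne_of_mem_erase hb) (hinj e).symm
  have hle : ∀ a, ∀ b ∈ univ.erase a, h.eval (dot (x a) (x b)) ≤ f (dot (x a) (x b)) :=
    fun a b hb => (hf.interpolant_le hl hlI le_rfl hhd hhm (hI a b hb)).1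
  have h1 : energy (fun t => h.eval t) x ≤ energy f x :=
    sum_le_sum fun a _ => sum_le_sum (hle a)
  have h2 : energy (fun t => h.eval t) y = energy f y := by
    refine sum_congr rfl fun a _ => sum_congr rfl fun b hb => ?_
    rcases hnode a b (ne_of_mem_erase hb).symm with e | e
    · rw [e]; exact hhm.1.symm
    · exact (hhm.2 _ e).1.symm
  have h3 : energy (fun t => h.eval t) y ≤ energy (fun t => h.eval t) x := by
    have := sum_le_of_design hn hhK x hx y hdes hcard
    rw [← energy_add_diag (fun t => h.eval t) x hx, ← energy_add_diag (fun t => h.eval t) y hy,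
      hcard] at this
    linarith
  refine ⟨by linarith, fun hpos he a b hab => ?_⟩
  have heq : energy (fun t => h.eval t) x = energy f x := by linarith
  have h4 := (sum_eq_sum_iff_of_le fun a _ => sum_le_sum (hle a)).1 heq a (mem_univ a)
  have hb : b ∈ univ.erase a := mem_erase.2 ⟨hab.symm, mem_univ b⟩
  exact (hf.interpolant_le hl hlI le_rfl hhd hhm (hI a b hb)).2 hpos
    ((sum_eq_sum_iff_of_le (hle a)).1 h4 b hb)

end FA.UniversalOptimal

end
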