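import Fermat.Agent.UniversalOptimal.Interpolation

/-!
# Inverse powers of the distance and its logarithm

As functions of the inner product `t` of two unit vectors, whose distance is `√(2 - 2 t)`.
-/

set_option autoImplicit false

noncomputable section

open Set Filter

namespace FA.UniversalOptimal

/-- The distance to the power `-s`. -/
def riesz (s t : ℝ) : ℝ := (2 - 2 * t) ^ (-s / 2)

/-- Minus the logarithm of the distance. -/
def logPot (t : ℝ) : ℝ := -Real.log (2 - 2 * t) / 2

/-- The factors of the derivatives. -/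
def rieszCoeff (s : ℝ) : ℕ → ℝ
  | 0 => 1
  | k + 1 => rieszCoeff s k * (s + 2 * k)

theorem rieszCoeff_pos {s : ℝ} (hs : 0 < s) (k : ℕ) : 0 < rieszCoeff s k := by
  induction k with
  | zero => exact one_pos
  | succ k ih => exact mul_pos ih (by positivity)

theorem iteratedDeriv_riesz (s : ℝ) (k : ℕ) : ∀ t < 1,
    iteratedDeriv k (riesz s) t = rieszCoeff s k * (2 - 2 * t) ^ (-s / 2 - k) := by
  induction k with
  | zero => intro t _; simp [riesz, rieszCoeff]
  | succ k ih =>
    intro t ht
    have hev : iteratedDeriv k (riesz s) =ᶠ[nhds t]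
        fun u => rieszCoeff s k * (2 - 2 * u) ^ (-s / 2 - k) :=
      (eventually_lt_nhds ht).mono ih
    have hd : HasDerivAt (fun u : ℝ => 2 - 2 * u) (-2) t := by
      simpa using ((hasDerivAt_id t).const_mul 2).const_sub 2
    have h := (hd.rpow_const (p := -s / 2 - k) (Or.inl (by linarith))).const_mul (rieszCoeff s k)
    rw [iteratedDeriv_succ, hev.deriv_eq, h.deriv, rieszCoeff,
      show -s / 2 - ((k + 1 : ℕ) : ℝ) = -s / 2 - k - 1 by push_cast; ring]
    ring

theorem iteratedDeriv_riesz_pos {s : ℝ} (hs : 0 < s) (k : ℕ) {t : ℝ} (ht : t < 1) :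
    0 < iteratedDeriv k (riesz s) t := by
  rw [iteratedDeriv_riesz s k t ht]
  exact mul_pos (rieszCoeff_pos hs k) (Real.rpow_pos_of_pos (by linarith) _)

theorem iteratedDeriv_logPot_pos {k : ℕ} (hk : 1 ≤ k) {t : ℝ} (ht : t < 1) :
    0 < iteratedDeriv k logPot t := by
  obtain ⟨k, rfl⟩ : ∃ j, k = j + 1 := ⟨k - 1, by omega⟩
  have hev : deriv logPot =ᶠ[nhds t] riesz 2 := by
    refine (eventually_lt_nhds ht).mono fun u hu => ?_
    have hd : HasDerivAt (fun u : ℝ => 2 - 2 * u) (-2) u := by
      simpa using ((hasDerivAt_id u).const_mul 2).const_sub 2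
    have h := ((hd.log (by linarith)).neg).div_const 2
    rw [show deriv logPot u = _ from h.deriv, riesz, show (-2 : ℝ) / 2 = ((-1 : ℤ) : ℝ) by norm_num,
      Real.rpow_intCast, zpow_neg_one]
    ring
  rw [iteratedDeriv_succ', hev.iteratedDeriv_eq k]
  exact iteratedDeriv_riesz_pos two_pos k ht

theorem isPotential_riesz {s : ℝ} (hs : 0 < s) (m : ℕ) : IsPotential (riesz s) m := by
  have hsm : ContDiffOn ℝ m (riesz s) (Iio 1) :=
    ContDiffOn.rpow_const_of_ne (by fun_prop) fun t ht => by
      have : t < 1 := ht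
      linarith
  exact ⟨hsm.continuousOn.mono Ico_subset_Iio_self, hsm.mono Ioo_subset_Iio_self,
    fun k _ _ t ht => (iteratedDeriv_riesz_pos hs k ht.2).le⟩

theorem isPotential_logPot (m : ℕ) : IsPotential logPot m := by
  have hsm : ContDiffOn ℝ m logPot (Iio 1) :=
    (ContDiffOn.log (by fun_prop) fun t ht => by
      have : t < 1 := ht
      linarith).neg.div_const 2
  exact ⟨hsm.continuousOn.mono Ico_subset_Iio_self, hsm.mono Ioo_subset_Iio_self,
    fun k hk _ t ht => (iteratedDeriv_logPot_pos hk ht.2).le⟩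

theorem isPotential_of_absolutelyMonotone {f : ℝ → ℝ}
    (hf : AbsolutelyMonotoneOn f (Ico (-1) 1)) (m : ℕ) : IsPotential f m := by
  obtain ⟨p, hp, hp0⟩ := hf
  have hf' : AbsolutelyMonotoneOn f (Ioo (-1) 1) :=
    ⟨p, hp.mono Ioo_subset_Ico_self, fun n _ hx => hp0 n (Ioo_subset_Ico_self hx)⟩
  refine ⟨hp.continuousOn, hf'.contDiffOn.of_le (by exact_mod_cast le_top), fun k _ _ t ht => ?_⟩
  rw [← iteratedDerivWithin_of_isOpen isOpen_Ioo ht]
  exact hf'.iteratedDerivWithin_nonneg isOpen_Ioo.uniqueDiffOn k ht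

end FA.UniversalOptimal

end
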