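import Fermat.Agent.Root.SummaryKissingUnique
import Fermat.Agent.UniversalOptimal.Energy
import Fermat.Agent.UniversalOptimal.Potentials

/-!
# Energies of configurations in Euclidean space
-/

set_option autoImplicit false

noncomputable section

open Finset
open scoped RealInnerProductSpace

namespace FA.UniversalOptimal

open FA.KissingUnique (dot)

variable {d N : ℕ}

/-- The energy of a configuration on the sphere for a potential of the inner product. -/
def pairEnergy (f : ℝ → ℝ) (x : Fin N → EuclideanSpace ℝ (Fin d)) : ℝ :=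
  ∑ i, ∑ j ∈ univ.erase i, f ⟪x i, x j⟫

theorem pairEnergy_eq (f : ℝ → ℝ) (x : Fin N → EuclideanSpace ℝ (Fin d)) :
    pairEnergy f x = energy f fun i => (x i).ofLp := by
  simp only [pairEnergy, energy, Summary.inner_eq_dot]

theorem dot_self_ofLp {x : Fin N → EuclideanSpace ℝ (Fin d)} (hx : ∀ i, ‖x i‖ = 1) (i : Fin N) :
    dot (x i).ofLp (x i).ofLp = 1 := by
  rw [← Summary.inner_eq_dot, real_inner_self_eq_norm_sq, hx, one_pow]

/-- An isometry between the ranges keeps the energy. -/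
theorem pairEnergy_congr (f : ℝ → ℝ) {x y : Fin N → EuclideanSpace ℝ (Fin d)}
    (hinj : Function.Injective x)
    {O : EuclideanSpace ℝ (Fin d) ≃ₗᵢ[ℝ] EuclideanSpace ℝ (Fin d)}
    (hO : O '' Set.range x = Set.range y) : pairEnergy f x = pairEnergy f y := by
  choose σ hσ using fun i => show ∃ j, y j = O (x i) from
    hO.le ⟨x i, ⟨i, rfl⟩, rfl⟩
  have hσi : Function.Injective σ := fun a b e => hinj (O.injective (by rw [← hσ, ← hσ, e]))
  let τ := Equiv.ofBijective σ ((Fintype.bijective_iff_injective_and_card σ).2 ⟨hσi, rfl⟩)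
  rw [pairEnergy, pairEnergy, ← Equiv.sum_comp τ fun i => ∑ j ∈ univ.erase i, f ⟪y i, y j⟫]
  refine sum_congr rfl fun i _ => sum_equiv τ (fun j => by simp) fun j _ => ?_
  show _ = f ⟪y (σ i), y (σ j)⟫
  rw [hσ, hσ, LinearIsometryEquiv.inner_map_map]

/-- The conclusion of universal optimality for the configuration `y`. -/
def IsOptimal (f : ℝ → ℝ) (x y : Fin N → EuclideanSpace ℝ (Fin d)) : Prop :=
  pairEnergy f y ≤ pairEnergy f x ∧ (pairEnergy f x = pairEnergy f y ↔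
    ∃ O : EuclideanSpace ℝ (Fin d) ≃ₗᵢ[ℝ] EuclideanSpace ℝ (Fin d),
      O '' Set.range x = Set.range y)

theorem inner_eq_dist {u v : EuclideanSpace ℝ (Fin d)} (hu : ‖u‖ = 1) (hv : ‖v‖ = 1) :
    2 - 2 * ⟪u, v⟫ = ‖u - v‖ ^ 2 := by
  rw [norm_sub_sq_real, hu, hv]; ring

theorem pairEnergy_riesz {x : Fin N → EuclideanSpace ℝ (Fin d)} (hx : ∀ i, ‖x i‖ = 1) (s : ℝ) :
    pairEnergy (riesz s) x = ∑ i, ∑ j ∈ univ.erase i, ‖x i - x j‖ ^ (-s) :=
  sum_congr rfl fun i _ => sum_congr rfl fun j _ => by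
    rw [riesz, inner_eq_dist (hx i) (hx j), ← Real.rpow_natCast,
      ← Real.rpow_mul (norm_nonneg _)]
    push_cast
    ring_nf

theorem pairEnergy_logPot {x : Fin N → EuclideanSpace ℝ (Fin d)} (hx : ∀ i, ‖x i‖ = 1) :
    pairEnergy logPot x = -∑ i, ∑ j ∈ univ.erase i, Real.log ‖x i - x j‖ := by
  simp only [← sum_neg_distrib]
  exact sum_congr rfl fun i _ => sum_congr rfl fun j _ => by
    rw [logPot, inner_eq_dist (hx i) (hx j), Real.log_pow]
    push_cast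
    ring

theorem prod_dist_pos {x : Fin N → EuclideanSpace ℝ (Fin d)} (hinj : Function.Injective x) :
    0 < ∏ i, ∏ j ∈ univ.erase i, ‖x i - x j‖ :=
  prod_pos fun _ _ => prod_pos fun _ hj =>
    norm_pos_iff.2 (sub_ne_zero.2 fun e => (ne_of_mem_erase hj) (hinj e).symm)

theorem log_prod_dist {x : Fin N → EuclideanSpace ℝ (Fin d)} (hinj : Function.Injective x)
    (hx : ∀ i, ‖x i‖ = 1) :
    Real.log (∏ i, ∏ j ∈ univ.erase i, ‖x i - x j‖) = -pairEnergy logPot x := by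
  have hne : ∀ i, ∀ j ∈ univ.erase i, ‖x i - x j‖ ≠ 0 := fun i j hj =>
    norm_ne_zero_iff.2 (sub_ne_zero.2 fun e => (ne_of_mem_erase hj) (hinj e).symm)
  rw [pairEnergy_logPot hx, neg_neg,
    Real.log_prod fun i _ => prod_ne_zero_iff.2 (hne i)]
  exact sum_congr rfl fun i _ => Real.log_prod (hne i)

/-- Products of distances are largest where the logarithmic energy is least. -/
theorem prod_dist_le {x y : Fin N → EuclideanSpace ℝ (Fin d)} (hx : ∀ i, ‖x i‖ = 1)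
    (hxi : Function.Injective x) (hy : ∀ i, ‖y i‖ = 1) (hyi : Function.Injective y)
    (h : IsOptimal logPot x y) :
    ∏ i, ∏ j ∈ univ.erase i, ‖x i - x j‖ ≤ ∏ i, ∏ j ∈ univ.erase i, ‖y i - y j‖ ∧
      (∏ i, ∏ j ∈ univ.erase i, ‖x i - x j‖ = ∏ i, ∏ j ∈ univ.erase i, ‖y i - y j‖ ↔
        ∃ O : EuclideanSpace ℝ (Fin d) ≃ₗᵢ[ℝ] EuclideanSpace ℝ (Fin d),
          O '' Set.range x = Set.range y) := by
  have h1 := prod_dist_pos hxi
  have h2 := prod_dist_pos hyi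
  rw [← Real.log_le_log_iff h1 h2, ← h.2, log_prod_dist hxi hx, log_prod_dist hyi hy]
  refine ⟨neg_le_neg h.1, fun e => ?_, fun e => ?_⟩
  · have := congrArg Real.log e
    rwa [log_prod_dist hxi hx, log_prod_dist hyi hy, neg_inj] at this
  · exact Real.log_injOn_pos h1 h2 (by rw [log_prod_dist hxi hx, log_prod_dist hyi hy, e])

/-- Minimality from the linear programming bound, with the uniqueness of the configuration. -/
theorem isOptimal_of_bound (hd : 0 < d) {f : ℝ → ℝ} {l : List ℝ}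
    (hf : IsPotential f (2 * l.length + 1))
    (hpos : ∀ s ∈ Set.Ioo (-1 : ℝ) 1, 0 < iteratedDeriv (2 * l.length + 1) f s)
    (hl : l.Nodup) (hlI : ∀ t ∈ l, t ∈ Set.Ioo (-1 : ℝ) 1) (hhalf : ∀ t ∈ l, t ≤ 1 / 2)
    (hsuf : ∀ t l', t :: l' <:+ l → nodePoly l' ∈ cone d (2 * l.length) ∧
      nodePoly l' * (Polynomial.X - Polynomial.C t) ∈ cone d (2 * l.length))
    {x y : Fin N → EuclideanSpace ℝ (Fin d)} (hx : ∀ i, ‖x i‖ = 1) (hinj : Function.Injective x)
    (hy : ∀ i, ‖y i‖ = 1) (hnode : ∀ a b, a ≠ b → ⟪y a, y b⟫ = -1 ∨ ⟪y a, y b⟫ ∈ l)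
    (hdes : ∀ k, 1 ≤ k → k ≤ 2 * l.length → ∀ a, ∑ b, FA.Zonal.gegPoly d k ⟪y a, y b⟫ = 0)
    (huniq : Summary.IsKissing x → ∃ O : EuclideanSpace ℝ (Fin d) ≃ₗᵢ[ℝ] EuclideanSpace ℝ (Fin d),
      O '' Set.range x = Set.range y) :
    IsOptimal f x y := by
  simp only [Summary.inner_eq_dot] at hnode hdes
  have h := energy_min hd hf hl hlI hsuf (dot_self_ofLp hx)
    (fun a b e => hinj (WithLp.ofLp_injective 2 e)) (dot_self_ofLp hy) hnode hdes rfl
  rw [← pairEnergy_eq, ← pairEnergy_eq] at h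
  refine ⟨h.1, fun e => huniq ⟨hx, fun a b hab => ?_⟩, fun ⟨O, hO⟩ => pairEnergy_congr f hinj hO⟩
  refine (Summary.dist_ge_one_iff (hx a) (hx b)).2 ?_
  rcases h.2 hpos e a b hab with e' | e'
  · exact (show _ = (-1 : ℝ) from e').le.trans (by norm_num)
  · exact hhalf _ e'

theorem pairEnergy_le_of_bound (hd : 0 < d) {f : ℝ → ℝ} {l : List ℝ}
    (hf : IsPotential f (2 * l.length + 1))
    (hl : l.Nodup) (hlI : ∀ t ∈ l, t ∈ Set.Ioo (-1 : ℝ) 1)
    (hsuf : ∀ t l', t :: l' <:+ l → nodePoly l' ∈ cone d (2 * l.length) ∧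
      nodePoly l' * (Polynomial.X - Polynomial.C t) ∈ cone d (2 * l.length))
    {x y : Fin N → EuclideanSpace ℝ (Fin d)} (hx : ∀ i, ‖x i‖ = 1) (hinj : Function.Injective x)
    (hy : ∀ i, ‖y i‖ = 1) (hnode : ∀ a b, a ≠ b → ⟪y a, y b⟫ = -1 ∨ ⟪y a, y b⟫ ∈ l)
    (hdes : ∀ k, 1 ≤ k → k ≤ 2 * l.length → ∀ a, ∑ b, FA.Zonal.gegPoly d k ⟪y a, y b⟫ = 0) :
    pairEnergy f y ≤ pairEnergy f x := by
  simp only [Summary.inner_eq_dot] at hnode hdes
  rw [pairEnergy_eq, pairEnergy_eq]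
  exact (energy_min hd hf hl hlI hsuf (dot_self_ofLp hx)
    (fun a b e => hinj (WithLp.ofLp_injective 2 e)) (dot_self_ofLp hy) hnode hdes rfl).1

end FA.UniversalOptimal

end
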