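import Mathlib

/-!
# Hermite interpolation from below

For a function with nonnegative derivatives of orders `1, …, 2 r + 1` on `(-1, 1)`, the polynomial
matching it at `-1` and, together with the first derivative, at `r` points of `(-1, 1)` lies below
it and has nonnegative coefficients in the Newton basis, apart from the constant.
-/

set_option autoImplicit false

noncomputable section

open Polynomial Set
open scoped Nat

namespace FA.UniversalOptimal

/-- Continuous on `[-1, 1)`, with `m` continuous derivatives on `(-1, 1)`, those of positive order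
nonnegative. -/
structure IsPotential (f : ℝ → ℝ) (m : ℕ) : Prop where
  cont : ContinuousOn f (Ico (-1) 1)
  smooth : ContDiffOn ℝ m f (Ioo (-1) 1)
  nonneg : ∀ k, 1 ≤ k → k ≤ m → ∀ t ∈ Ioo (-1 : ℝ) 1, 0 ≤ iteratedDeriv k f t

variable {f : ℝ → ℝ} {m : ℕ}

theorem IsPotential.mono (hf : IsPotential f m) {k : ℕ} (hk : k ≤ m) : IsPotential f k :=
  ⟨hf.cont, hf.smooth.of_le (by exact_mod_cast hk), fun j h1 h2 => hf.nonneg j h1 (h2.trans hk)⟩

theorem IsPotential.hasDerivAt (hf : IsPotential f m) {k : ℕ} (hk : k < m) {t : ℝ}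
    (ht : t ∈ Ioo (-1 : ℝ) 1) :
    HasDerivAt (iteratedDeriv k f) (iteratedDeriv (k + 1) f t) t := by
  have h1 := hf.smooth.differentiableOn_iteratedDerivWithin (m := k) (by exact_mod_cast hk)
    isOpen_Ioo.uniqueDiffOn
  have h2 : DifferentiableOn ℝ (iteratedDeriv k f) (Ioo (-1) 1) :=
    h1.congr fun x hx => (iteratedDerivWithin_of_isOpen isOpen_Ioo hx).symm
  rw [iteratedDeriv_succ]
  exact ((h2 t ht).differentiableAt (isOpen_Ioo.mem_nhds ht)).hasDerivAt

/-- The derivatives of the difference to a polynomial. -/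
def errDeriv (f : ℝ → ℝ) (p : ℝ[X]) (j : ℕ) (t : ℝ) : ℝ :=
  iteratedDeriv j f t - (derivative^[j] p).eval t

theorem IsPotential.hasDerivAt_errDeriv (hf : IsPotential f m) (p : ℝ[X]) {j : ℕ} (hj : j < m)
    {t : ℝ} (ht : t ∈ Ioo (-1 : ℝ) 1) :
    HasDerivAt (errDeriv f p j) (errDeriv f p (j + 1) t) t := by
  unfold errDeriv
  rw [Function.iterate_succ_apply' derivative j p]
  exact (hf.hasDerivAt hj ht).sub ((derivative^[j] p).hasDerivAt t)

/-- One critical point between any two neighbouring zeros. -/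
theorem exists_gap_zeros {g g' : ℝ → ℝ} (Z : Finset ℝ)
    (hc : ∀ z ∈ Z, ∀ w ∈ Z, ContinuousOn g (Icc z w))
    (hd : ∀ t ∈ Ioo (-1 : ℝ) 1, HasDerivAt g (g' t) t)
    (hZ : ∀ z ∈ Z, z ∈ Ico (-1 : ℝ) 1 ∧ g z = 0) :
    ∃ R : Finset ℝ, R.card + 1 ≥ Z.card ∧ Disjoint R Z ∧
      ∀ t ∈ R, t ∈ Ioo (-1 : ℝ) 1 ∧ g' t = 0 := by
  classical
  let next : ℝ → Finset ℝ := fun z => Z.filter fun w => z < w
  let T := Z.filter fun z => (next z).Nonempty
  have hroll : ∀ z ∈ T, ∃ r, z < r ∧ r ∈ Ioo (-1 : ℝ) 1 ∧ g' r = 0 ∧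
      ∀ w ∈ Z, z < w → r < w := by
    intro z hz
    obtain ⟨hzZ, hne⟩ := Finset.mem_filter.1 hz
    set w := (next z).min' hne with hw
    obtain ⟨hwZ, hzw⟩ := Finset.mem_filter.1 ((next z).min'_mem hne)
    have hI' : ∀ t ∈ Ioo z w, t ∈ Ioo (-1 : ℝ) 1 := fun t ht =>
      ⟨(hZ z hzZ).1.1.trans_lt ht.1, ht.2.trans (hZ w hwZ).1.2⟩
    obtain ⟨r, hr, hr0⟩ := exists_hasDerivAt_eq_zero hzw (hc z hzZ w hwZ)
      ((hZ z hzZ).2.trans (hZ w hwZ).2.symm) fun t ht => hd t (hI' t ht)
    exact ⟨r, hr.1, hI' r hr, hr0, fun u hu hzu => hr.2.trans_le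
      ((next z).min'_le u (Finset.mem_filter.2 ⟨hu, hzu⟩))⟩
  choose! r hr1 hr2 hr3 hr4 using hroll
  have hTZ : ∀ z ∈ T, z ∈ Z := fun z hz => (Finset.mem_filter.1 hz).1
  refine ⟨T.image r, ?_, Finset.disjoint_left.2 ?_, fun t ht => ?_⟩
  · have hinj : Set.InjOn r T := fun a ha b hb e => by
      rcases lt_trichotomy a b with h | h | h
      · exact absurd e ((hr4 a ha b (hTZ b hb) h).trans (hr1 b hb)).ne
      · exact h
      · exact absurd e.symm ((hr4 b hb a (hTZ a ha) h).trans (hr1 a ha)).ne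
    rw [Finset.card_image_of_injOn hinj]
    rcases Z.eq_empty_or_nonempty with rfl | hne
    · simp
    refine le_trans (Finset.card_le_card (t := insert (Z.max' hne) T) fun z hz => ?_)
      (Finset.card_insert_le _ _)
    rcases (Z.le_max' z hz).lt_or_eq with h | h
    · exact Finset.mem_insert_of_mem (Finset.mem_filter.2
        ⟨hz, _, Finset.mem_filter.2 ⟨Z.max'_mem hne, h⟩⟩)
    · rw [h]; exact Finset.mem_insert_self _ _
  · intro t ht htZ
    obtain ⟨z, hz, rfl⟩ := Finset.mem_image.1 ht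
    exact lt_irrefl _ (hr4 z hz _ htZ (hr1 z hz))
  · obtain ⟨z, hz, rfl⟩ := Finset.mem_image.1 ht
    exact ⟨hr2 z hz, hr3 z hz⟩

theorem IsPotential.exists_errDeriv_zero (hf : IsPotential f m) (p : ℝ[X]) (n : ℕ) :
    ∀ j, j + n ≤ m → ∀ Z : Finset ℝ, n < Z.card →
      (∀ z ∈ Z, z ∈ Ioo (-1 : ℝ) 1 ∧ errDeriv f p j z = 0) →
      ∃ ξ ∈ Ioo (-1 : ℝ) 1, errDeriv f p (j + n) ξ = 0 := by
  induction n with
  | zero =>
    intro j _ Z hc hZ
    obtain ⟨z, hz⟩ := Finset.card_pos.1 hc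
    exact ⟨z, hZ z hz⟩
  | succ n ih =>
    intro j hj Z hc hZ
    obtain ⟨R, hR, -, hR0⟩ := exists_gap_zeros Z
      (fun z hz w hw t ht => (hf.hasDerivAt_errDeriv p (j := j) (by omega)
        ⟨(hZ z hz).1.1.trans_le ht.1, ht.2.trans_lt (hZ w hw).1.2⟩).continuousAt.continuousWithinAt)
      (fun t ht => hf.hasDerivAt_errDeriv p (by omega) ht)
      fun z hz => ⟨Ioo_subset_Ico_self (hZ z hz).1, (hZ z hz).2⟩
    obtain ⟨ξ, h1, h2⟩ := ih (j + 1) (by omega) R (by omega) hR0
    exact ⟨ξ, h1, by rwa [show j + (n + 1) = j + 1 + n by omega]⟩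

/-- **Rolle, with double zeros.** -/
theorem IsPotential.exists_coeff (hf : IsPotential f m) (p : ℝ[X]) {k : ℕ} (hk1 : 1 ≤ k)
    (hkm : k ≤ m) (hp : p.natDegree ≤ k) (Z S : Finset ℝ) (hcard : k + 1 ≤ Z.card + S.card)
    (hZ : ∀ z ∈ Z, z ∈ Ico (-1 : ℝ) 1 ∧ f z = p.eval z)
    (hS : ∀ z ∈ S, z ∈ Z ∧ z ∈ Ioo (-1 : ℝ) 1 ∧ deriv f z = p.derivative.eval z) :
    ∃ ξ ∈ Ioo (-1 : ℝ) 1, iteratedDeriv k f ξ = k ! * p.coeff k := by
  classical
  have hc : ContinuousOn (errDeriv f p 0) (Ico (-1) 1) := by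
    rw [show errDeriv f p 0 = fun t => f t - p.eval t from funext fun t => by simp [errDeriv]]
    exact hf.cont.sub p.continuous.continuousOn
  obtain ⟨R, hR, hdis, hR0⟩ := exists_gap_zeros (g := errDeriv f p 0) Z
    (fun z hz w hw => hc.mono fun t ht => ⟨(hZ z hz).1.1.trans ht.1, ht.2.trans_lt (hZ w hw).1.2⟩)
    (fun t ht => hf.hasDerivAt_errDeriv p (by omega) ht)
    fun z hz => ⟨(hZ z hz).1, by simp [errDeriv, (hZ z hz).2]⟩
  have hu : (R ∪ S).card = R.card + S.card :=
    Finset.card_union_of_disjoint (Finset.disjoint_left.2 fun t ht htS =>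
      Finset.disjoint_left.1 hdis ht (hS t htS).1)
  obtain ⟨ξ, hξ, h0⟩ := hf.exists_errDeriv_zero p (k - 1) 1 (by omega) (R ∪ S) (by omega)
    fun z hz => by
      rcases Finset.mem_union.1 hz with hz | hz
      · exact hR0 z hz
      · exact ⟨(hS z hz).2.1, by simp [errDeriv, (hS z hz).2.2]⟩
  refine ⟨ξ, hξ, ?_⟩
  rw [show 1 + (k - 1) = k by omega, errDeriv, sub_eq_zero] at h0
  have h2 : (derivative^[k] p).natDegree = 0 := by
    have := natDegree_iterate_derivative p k
    omega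
  rw [h0, eq_C_of_natDegree_eq_zero h2, eval_C, coeff_iterate_derivative, zero_add,
    Nat.descFactorial_self, nsmul_eq_mul]

/-- The polynomial vanishing simply at `-1` and doubly at the points of `l`. -/
def nodePoly : List ℝ → ℝ[X]
  | [] => X + C 1
  | t :: l => nodePoly l * (X - C t) * (X - C t)

theorem natDegree_nodePoly (l : List ℝ) :
    (nodePoly l).Monic ∧ (nodePoly l).natDegree = 2 * l.length + 1 := by
  induction l with
  | nil => exact ⟨monic_X_add_C 1, natDegree_X_add_C 1⟩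
  | cons t l ih =>
    have h1 := ih.1.mul (monic_X_sub_C t)
    refine ⟨h1.mul (monic_X_sub_C t), ?_⟩
    rw [nodePoly, h1.natDegree_mul (monic_X_sub_C t), ih.1.natDegree_mul (monic_X_sub_C t),
      natDegree_X_sub_C, ih.2, List.length_cons]
    ring

theorem eval_nodePoly_pos (l : List ℝ) {t : ℝ} (h1 : -1 < t) (ht : t ∉ l) :
    0 < (nodePoly l).eval t := by
  induction l with
  | nil => simp [nodePoly]; linarith
  | cons a l ih =>
    obtain ⟨hne, htl⟩ := not_or.1 (fun h => ht (List.mem_cons.2 h))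
    simp only [nodePoly, eval_mul, eval_sub, eval_X, eval_C, mul_assoc]
    exact mul_pos (ih htl) (mul_self_pos.2 (sub_ne_zero.2 hne))

theorem eval_nodePoly_zero (l : List ℝ) :
    (nodePoly l).eval (-1) = 0 ∧ ∀ t ∈ l, (nodePoly l).eval t = 0 ∧
      (nodePoly l).derivative.eval t = 0 := by
  induction l with
  | nil => simp [nodePoly]
  | cons a l ih =>
    refine ⟨by simp [nodePoly, ih.1], fun t ht => ?_⟩
    rcases List.mem_cons.1 ht with rfl | ht
    · simp [nodePoly]
    · simp [nodePoly, derivative_mul, ih.2 t ht]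

/-- Matches `f` at `-1` and, doubly, at the points of `l`. -/
def Matches (f : ℝ → ℝ) (l : List ℝ) (h : ℝ[X]) : Prop :=
  f (-1) = h.eval (-1) ∧ ∀ t ∈ l, f t = h.eval t ∧ deriv f t = h.derivative.eval t

/-- The error is a multiple of the node polynomial, with a derivative as factor. -/
theorem IsPotential.exists_error (hf : IsPotential f m) {l : List ℝ} (hl : l.Nodup)
    (hlI : ∀ t ∈ l, t ∈ Ioo (-1 : ℝ) 1) (hlm : 2 * l.length + 1 ≤ m) {h : ℝ[X]}
    (hd : h.natDegree < 2 * l.length + 1) (hm : Matches f l h) {t : ℝ}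
    (ht : t ∈ Ioo (-1 : ℝ) 1) (htl : t ∉ l) :
    ∃ ξ ∈ Ioo (-1 : ℝ) 1,
      f t = h.eval t +
        iteratedDeriv (2 * l.length + 1) f ξ / (2 * l.length + 1)! * (nodePoly l).eval t := by
  classical
  set k := 2 * l.length + 1 with hk
  have hP := eval_nodePoly_pos l ht.1 htl
  set c := (f t - h.eval t) / (nodePoly l).eval t with hc
  obtain ⟨hmon, hdeg⟩ := natDegree_nodePoly l
  obtain ⟨hz1, hz2⟩ := eval_nodePoly_zero l
  have hne : (-1 : ℝ) ∉ l := fun h' => lt_irrefl _ (hlI _ h').1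
  obtain ⟨ξ, hξ, e⟩ := hf.exists_coeff (h + C c * nodePoly l) (k := k) (by omega) hlm
    ((natDegree_add_le _ _).trans (max_le hd.le
      ((natDegree_C_mul_le c _).trans hdeg.le)))
    (insert t (insert (-1) l.toFinset)) l.toFinset (by
      rw [Finset.card_insert_of_notMem, Finset.card_insert_of_notMem,
        List.toFinset_card_of_nodup hl]
      · omega
      · simpa using hne
      · simp [htl, ht.1.ne'])
    (fun z hz => by
      simp only [Finset.mem_insert, List.mem_toFinset] at hz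
      rcases hz with rfl | rfl | hz
      · refine ⟨Ioo_subset_Ico_self ht, ?_⟩
        rw [eval_add, eval_mul, eval_C, hc, div_mul_cancel₀ _ hP.ne']
        ring
      · exact ⟨⟨le_rfl, by norm_num⟩, by simp [hm.1, hz1]⟩
      · exact ⟨Ioo_subset_Ico_self (hlI z hz), by simp [(hm.2 z hz).1, (hz2 z hz).1]⟩)
    fun z hz => by
      rw [List.mem_toFinset] at hz
      exact ⟨by simp [hz], hlI z hz, by simp [(hm.2 z hz).2, (hz2 z hz).2]⟩
  have hcoef : (h + C c * nodePoly l).coeff k = c := by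
    rw [coeff_add, coeff_C_mul, coeff_eq_zero_of_natDegree_lt hd,
      show k = (nodePoly l).natDegree from hdeg.symm, hmon.coeff_natDegree]
    ring
  refine ⟨ξ, hξ, ?_⟩
  rw [e, hcoef, mul_div_cancel_left₀ c (by positivity), hc, div_mul_cancel₀ _ hP.ne']
  ring

/-- **Hermite interpolation from below.** The interpolant lies in every convex cone with the
constants and the Newton basis. -/
theorem IsPotential.exists_interpolant (hf : IsPotential f m) (K : Set ℝ[X])
    (hK0 : ∀ c, C c ∈ K) (hKadd : ∀ p ∈ K, ∀ q ∈ K, p + q ∈ K)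
    (hKmul : ∀ c, 0 ≤ c → ∀ p ∈ K, C c * p ∈ K) :
    ∀ l : List ℝ, l.Nodup → (∀ t ∈ l, t ∈ Ioo (-1 : ℝ) 1) → 2 * l.length ≤ m →
      (∀ t l', t :: l' <:+ l → nodePoly l' ∈ K ∧ nodePoly l' * (X - C t) ∈ K) →
      ∃ h ∈ K, h.natDegree < 2 * l.length + 1 ∧ Matches f l h := by
  intro l
  induction l with
  | nil =>
    intro _ _ _ _
    exact ⟨C (f (-1)), hK0 _, by simp, by simp [Matches]⟩
  | cons t l ih =>
    intro hl hlI hlm hsuf
    obtain ⟨htl, hl'⟩ := List.nodup_cons.1 hl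
    have hlI' : ∀ s ∈ l, s ∈ Ioo (-1 : ℝ) 1 := fun s hs => hlI s (List.mem_cons_of_mem _ hs)
    have htI := hlI t List.mem_cons_self
    rw [List.length_cons] at hlm
    obtain ⟨h, hhK, hhd, hhm⟩ := ih hl' hlI' (by omega)
      fun s l' hsl => hsuf s l' (hsl.trans (List.suffix_cons t l))
    obtain ⟨hP1, hP2⟩ := hsuf t l List.suffix_rfl
    obtain ⟨hmon, hdeg⟩ := natDegree_nodePoly l
    obtain ⟨hz1, hz2⟩ := eval_nodePoly_zero l
    obtain ⟨ξ, hξ, e⟩ := hf.exists_error hl' hlI' (by omega) hhd hhm htI htl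
    set c := iteratedDeriv (2 * l.length + 1) f ξ / (2 * l.length + 1)! with hc
    have hc0 : 0 ≤ c := div_nonneg (hf.nonneg _ (by omega) (by omega) ξ hξ) (Nat.cast_nonneg _)
    set h₁ := h + C c * nodePoly l with hh₁
    have hh₁d : h₁.natDegree ≤ 2 * l.length + 1 :=
      (natDegree_add_le _ _).trans (max_le hhd.le ((natDegree_C_mul_le _ _).trans hdeg.le))
    have hh₁t : f t = h₁.eval t := by simp [hh₁, e]
    -- the second coefficient
    have hQ : (nodePoly l * (X - C t)).derivative.eval t = (nodePoly l).eval t := by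
      simp [derivative_mul]
    have hP := eval_nodePoly_pos l htI.1 htl
    set b := (deriv f t - h₁.derivative.eval t) / (nodePoly l).eval t with hb
    set h₂ := h₁ + C b * (nodePoly l * (X - C t)) with hh₂
    have hQd : (nodePoly l * (X - C t)).natDegree = 2 * l.length + 2 := by
      rw [hmon.natDegree_mul (monic_X_sub_C t), natDegree_X_sub_C, hdeg]
    have hh₂d : h₂.natDegree ≤ 2 * l.length + 2 :=
      (natDegree_add_le _ _).trans (max_le (by omega)
        ((natDegree_C_mul_le _ _).trans hQd.le))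
    have hm₂ : Matches f (t :: l) h₂ := by
      refine ⟨by simp [hh₂, hh₁, hhm.1, hz1], fun s hs => ?_⟩
      rcases List.mem_cons.1 hs with rfl | hs
      · refine ⟨by simp [hh₂, hh₁t], ?_⟩
        rw [hh₂, map_add, derivative_C_mul, eval_add, eval_mul, eval_C, hQ, hb,
          div_mul_cancel₀ _ hP.ne']
        ring
      · simp [hh₂, hh₁, derivative_mul, (hhm.2 s hs).1, (hhm.2 s hs).2, (hz2 s hs).1,
          (hz2 s hs).2]
    obtain ⟨η, hη, e2⟩ := hf.exists_coeff h₂ (k := 2 * l.length + 2) (by omega) (by omega) hh₂d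
      (insert (-1) (t :: l).toFinset) (t :: l).toFinset (by
        rw [Finset.card_insert_of_notMem, List.toFinset_card_of_nodup hl, List.length_cons]
        · omega
        · rw [List.mem_toFinset]
          exact fun h' => lt_irrefl _ (hlI _ h').1)
      (fun z hz => by
        rcases Finset.mem_insert.1 hz with rfl | hz
        · exact ⟨⟨le_rfl, by norm_num⟩, hm₂.1⟩
        · rw [List.mem_toFinset] at hz
          exact ⟨Ioo_subset_Ico_self (hlI z hz), (hm₂.2 z hz).1⟩)
      fun z hz => by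
        rw [List.mem_toFinset] at hz
        exact ⟨Finset.mem_insert_of_mem (List.mem_toFinset.2 hz), hlI z hz, (hm₂.2 z hz).2⟩
    have hb0 : 0 ≤ b := by
      have hq : (nodePoly l * (X - C t)).coeff (2 * l.length + 2) = 1 := by
        rw [← hQd]; exact (hmon.mul (monic_X_sub_C t)).coeff_natDegree
      rw [hh₂, coeff_add, coeff_C_mul, hq,
        coeff_eq_zero_of_natDegree_lt (p := h₁) (Nat.lt_succ_of_le hh₁d), zero_add, mul_one] at e2
      have := hf.nonneg (2 * l.length + 2) (by omega) (by omega) η hη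
      rw [e2] at this
      exact (mul_nonneg_iff_of_pos_left (by positivity)).1 this
    exact ⟨h₂, hKadd _ (hKadd _ hhK _ (hKmul c hc0 _ hP1)) _ (hKmul b hb0 _ hP2),
      by rw [List.length_cons]; omega, hm₂⟩

/-- The interpolant lies below, strictly away from the nodes if the top derivative is positive. -/
theorem IsPotential.interpolant_le (hf : IsPotential f m) {l : List ℝ} (hl : l.Nodup)
    (hlI : ∀ t ∈ l, t ∈ Ioo (-1 : ℝ) 1) (hlm : 2 * l.length + 1 ≤ m) {h : ℝ[X]}
    (hd : h.natDegree < 2 * l.length + 1) (hm : Matches f l h) {t : ℝ}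
    (ht : t ∈ Ico (-1 : ℝ) 1) :
    h.eval t ≤ f t ∧ ((∀ s ∈ Ioo (-1 : ℝ) 1, 0 < iteratedDeriv (2 * l.length + 1) f s) →
      h.eval t = f t → t = -1 ∨ t ∈ l) := by
  rcases ht.1.eq_or_lt with rfl | ht1
  · exact ⟨hm.1.symm.le, fun _ _ => Or.inl rfl⟩
  by_cases htl : t ∈ l
  · exact ⟨(hm.2 t htl).1.symm.le, fun _ _ => Or.inr htl⟩
  obtain ⟨ξ, hξ, e⟩ := hf.exists_error hl hlI hlm hd hm ⟨ht1, ht.2⟩ htl
  have hP := eval_nodePoly_pos l ht1 htl
  refine ⟨?_, fun hpos he => absurd he ?_⟩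
  · rw [e]
    have := hf.nonneg _ (by omega) hlm ξ hξ
    exact le_add_of_nonneg_right (mul_nonneg (div_nonneg this (Nat.cast_nonneg _)) hP.le)
  · rw [e]
    exact (lt_add_of_pos_right _ (mul_pos (div_pos (hpos ξ hξ) (by positivity)) hP)).ne

end FA.UniversalOptimal

end
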